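import Fermat.Agent.KLB.Abs.Poly
import Fermat.Agent.KLB.Abs.Loc

/-!
# KL-B abstract part, node CECH-INT
`R₁ ∩ R₂` consists of elements integral over `A`.
-/

namespace Fermat.Agent.KLB

/-- Integrality over the image of `A` in `L` is integrality over `A`. -/
theorem isIntegral_of_isIntegral_range {A L E : Type*} [CommRing A] [Field L] [Field E]
    [Algebra A L] [Algebra L E] [Algebra A E] [IsScalarTower A L E] {y : E}
    (h : IsIntegral (algebraMap A L).range y) : IsIntegral A y := by
  obtain ⟨p, hp, hpy⟩ := h
  have hsurj : Function.Surjective (algebraMap A L).rangeRestrict :=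
    (algebraMap A L).rangeRestrict_surjective
  obtain ⟨q, hq, -, hqm⟩ := Polynomial.lifts_and_natDegree_eq_and_monic
    (f := (algebraMap A L).rangeRestrict) (p := p)
    ((Polynomial.mem_lifts p).2 (Polynomial.map_surjective _ hsurj p)) hp
  refine ⟨q, hqm, ?_⟩
  rw [← hq, Polynomial.eval₂_map] at hpy
  have hcomp : (algebraMap (algebraMap A L).range E).comp (algebraMap A L).rangeRestrict
      = algebraMap A E := by
    ext a
    exact (IsScalarTower.algebraMap_apply A L E a).symm
  rwa [hcomp] at hpy

variable {A L E : Type*} [CommRing A] [IsDomain A] [IsDiscreteValuationRing A] [Field L] [Field E]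
  [Algebra A L] [Algebra L E] [Algebra A E] [IsScalarTower A L E] {x : L} (hx : IsCoord A x)

include hx

theorem cech_inter {y : E} (h₁ : IsIntegral (Algebra.adjoin A {x}) y)
    (h₂ : IsIntegral (Algebra.adjoin A {x⁻¹}) y) : IsIntegral A y := by
  apply isIntegral_of_isIntegral_range (L := L)
  refine isIntegral_of_inter (Algebra.adjoin A {x}).toSubring (Algebra.adjoin A {x⁻¹}).toSubring
    (algebraMap A L).range ?_ ?_ ?_ h₁ h₂
  · intro a ha
    have := hx.isIntegrallyClosed
    have := hx.frac
    have ha' : IsIntegral (Algebra.adjoin A {x}) a := ha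
    obtain ⟨b, hb⟩ := IsIntegrallyClosed.isIntegral_iff.mp ha'
    rw [← hb]
    exact b.2
  · intro a ha
    have := hx.inv.isIntegrallyClosed
    have := hx.inv.frac
    have ha' : IsIntegral (Algebra.adjoin A {x⁻¹}) a := ha
    obtain ⟨b, hb⟩ := IsIntegrallyClosed.isIntegral_iff.mp ha'
    rw [← hb]
    exact b.2
  · intro a h1 h2
    exact hx.inter h1 h2

end Fermat.Agent.KLB
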