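import Fermat.Agent.KLB.Abs.Cech.FG

/-!
# KL-B abstract part, node CECH-TOR
The torsion of `H¹ = R₁₂ / (R₁ + R₂)` has bounded exponent.
-/

namespace Fermat.Agent.KLB

section aux

variable {A L E : Type*} [CommRing A] [Field L] [Field E]
  [Algebra A L] [Algebra L E] [Algebra A E] [IsScalarTower A L E]

/-- the `A`-module of the elements of `E` which are integral over the subalgebra `S` of `L`. -/
def intSub (S : Subalgebra A L) : Submodule A E where
  carrier := {y | IsIntegral S y}
  add_mem' := fun ha hb => IsIntegral.add ha hb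
  zero_mem' := isIntegral_zero
  smul_mem' := fun a y hy => by
    have h1 : algebraMap A E a = algebraMap S E ⟨algebraMap A L a, S.algebraMap_mem a⟩ :=
      IsScalarTower.algebraMap_apply A L E a
    have h2 : IsIntegral S (algebraMap A E a) := by
      rw [h1]; exact isIntegral_algebraMap
    show IsIntegral S (a • y)
    rw [Algebra.smul_def]
    exact h2.mul hy

theorem mem_intSub {S : Subalgebra A L} {y : E} : y ∈ intSub (E := E) S ↔ IsIntegral S y := Iff.rfl

/-- abstract statement: the `π`-power torsion of a finitely generated submodule of a quotient has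
bounded exponent. -/
theorem bounded_torsion [IsNoetherianRing A] {X : Type*} [AddCommGroup X] [Module A X]
    (H : Submodule A X) (hH : H.FG) (π : A) :
    ∃ e₀ : ℕ, ∀ h ∈ H, ∀ N : ℕ, π ^ N • h = 0 → π ^ e₀ • h = 0 := by
  have : IsNoetherian A H := isNoetherian_of_fg_of_noetherian H hH
  let f : ℕ →o Submodule A H :=
    { toFun := fun N => Submodule.torsionBy A H (π ^ N)
      monotone' := fun m n hmn =>
        Submodule.torsionBy_le_torsionBy_of_dvd _ _ (pow_dvd_pow π hmn) }
  obtain ⟨n, hn⟩ := monotone_stabilizes_iff_noetherian.2 ‹IsNoetherian A H› f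
  refine ⟨n, fun h hh N hN => ?_⟩
  have h1 : (⟨h, hh⟩ : H) ∈ f N := by
    show (⟨h, hh⟩ : H) ∈ Submodule.torsionBy A H (π ^ N)
    rw [Submodule.mem_torsionBy_iff]
    exact Subtype.ext hN
  have h2 : (⟨h, hh⟩ : H) ∈ f n := by
    rcases le_total n N with hle | hle
    · rw [hn N hle]; exact h1
    · exact f.monotone hle h1
  have h3 : (⟨h, hh⟩ : H) ∈ Submodule.torsionBy A H (π ^ n) := h2
  rw [Submodule.mem_torsionBy_iff] at h3
  exact congrArg Subtype.val h3

end aux

variable {A L E : Type*} [CommRing A] [IsDomain A] [IsDiscreteValuationRing A] [Field L] [Field E]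
  [Algebra A L] [Algebra L E] [Algebra A E] [IsScalarTower A L E] [FiniteDimensional L E]
  [Algebra.IsSeparable L E] {x : L} (hx : IsCoord A x) (π : A)

include hx

theorem cech_torsion :
    ∃ e₀ : ℕ, ∀ y : E, IsIntegral (Algebra.adjoin A {x, x⁻¹}) y → ∀ N : ℕ,
      (∃ y₁ y₂ : E, IsIntegral (Algebra.adjoin A {x}) y₁ ∧ IsIntegral (Algebra.adjoin A {x⁻¹}) y₂ ∧
        algebraMap A E π ^ N * y = y₁ + y₂) →
      ∃ y₁ y₂ : E, IsIntegral (Algebra.adjoin A {x}) y₁ ∧ IsIntegral (Algebra.adjoin A {x⁻¹}) y₂ ∧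
        algebraMap A E π ^ e₀ * y = y₁ + y₂ := by
  classical
  obtain ⟨G, hG, hgen⟩ := cech_fg (E := E) hx
  set M1 : Submodule A E := intSub (Algebra.adjoin A {x}) with hM1
  set M2 : Submodule A E := intSub (Algebra.adjoin A {x⁻¹}) with hM2
  set M12 : Submodule A E := intSub (Algebra.adjoin A {x, x⁻¹}) with hM12
  set M : Submodule A E := M1 ⊔ M2 with hM
  set H : Submodule A (E ⧸ M) := M12.map M.mkQ with hH
  have hsmul : ∀ (n : ℕ) (y : E), algebraMap A E π ^ n * y = π ^ n • y := by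
    intro n y
    rw [Algebra.smul_def, map_pow]
  have hFG : H.FG := by
    refine ⟨G.image M.mkQ, le_antisymm ?_ ?_⟩
    · rw [Submodule.span_le]
      intro h hh
      rw [Finset.coe_image] at hh
      obtain ⟨g, hg, rfl⟩ := hh
      exact Submodule.mem_map_of_mem (hG g hg)
    · rintro _ ⟨y, hy, rfl⟩
      obtain ⟨y₁, y₂, a, h1, h2, rfl⟩ := hgen y hy
      have h12 : y₁ + y₂ ∈ M :=
        Submodule.add_mem_sup (show y₁ ∈ M1 from h1) (show y₂ ∈ M2 from h2)
      rw [map_add, (Submodule.Quotient.mk_eq_zero M).2 h12 |> fun h => (show M.mkQ (y₁ + y₂) = 0 from h),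
        zero_add, map_sum]
      refine Submodule.sum_mem _ fun g hg => ?_
      rw [← Algebra.smul_def, map_smul]
      refine Submodule.smul_mem _ _ (Submodule.subset_span ?_)
      rw [Finset.coe_image]
      exact ⟨g, hg, rfl⟩
  obtain ⟨e₀, he₀⟩ := bounded_torsion H hFG π
  refine ⟨e₀, fun y hy N hN => ?_⟩
  obtain ⟨y₁, y₂, h1, h2, h3⟩ := hN
  have hmem : M.mkQ y ∈ H := Submodule.mem_map_of_mem hy
  have hz : π ^ N • M.mkQ y = 0 := by
    rw [← map_smul, ← hsmul, h3]
    exact (Submodule.Quotient.mk_eq_zero M).2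
      (Submodule.add_mem_sup (show y₁ ∈ M1 from h1) (show y₂ ∈ M2 from h2))
  have hz' := he₀ _ hmem N hz
  rw [← map_smul] at hz'
  have hz'' : π ^ e₀ • y ∈ M := (Submodule.Quotient.mk_eq_zero M).1 hz'
  obtain ⟨z₁, hz₁, z₂, hz₂, hsum⟩ := Submodule.mem_sup.1 hz''
  exact ⟨z₁, z₂, hz₁, hz₂, by rw [hsmul, hsum]⟩

end Fermat.Agent.KLB
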