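import Fermat.Agent.KLB.Abs.Poly
import Fermat.Agent.KLB.Abs.Loc

/-!
# KL-B abstract part, node CECH-FG
`H¹ = R₁₂ / (R₁ + R₂)` is a finitely generated `A`-module (Laurent splitting).
Proof: helper195.
-/

set_option linter.unusedSectionVars false

namespace Fermat.Agent.KLB

namespace CechFG

/-- transport of integrality along a ring hom compatible with the structure maps -/
theorem isIntegral_of_ringHom {R R' E : Type*} [CommRing R] [CommRing R'] [Ring E] [Algebra R E]
    [Algebra R' E] (g : R →+* R') (hg : (algebraMap R' E).comp g = algebraMap R E) {y : E}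
    (hy : IsIntegral R y) : IsIntegral R' y := by
  obtain ⟨p, hp, hp0⟩ := hy
  exact ⟨p.map g, hp.map g, by rw [Polynomial.eval₂_map, hg]; exact hp0⟩

section

variable {A L E : Type*} [CommRing A] [Field L] [Field E] [Algebra A L] [Algebra L E]

theorem isIntegral_mono {S T : Subalgebra A L} (h : S ≤ T) {y : E} (hy : IsIntegral S y) :
    IsIntegral T y :=
  isIntegral_of_ringHom (Subalgebra.inclusion h).toRingHom (by ext; rfl) hy

theorem isIntegral_toSubring {S : Subalgebra A L} {y : E} (hy : IsIntegral S y) :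
    IsIntegral S.toSubring y :=
  isIntegral_of_ringHom (S.val.toRingHom.codRestrict S.toSubring fun a => a.2) (by ext; rfl) hy

end

end CechFG

open CechFG

variable {A L E : Type*} [CommRing A] [IsDomain A] [IsDiscreteValuationRing A] [Field L] [Field E]
  [Algebra A L] [Algebra L E] [Algebra A E] [IsScalarTower A L E] [FiniteDimensional L E]
  [Algebra.IsSeparable L E] {x : L} (hx : IsCoord A x)

include hx

namespace CechFG

theorem ne_zero : x ≠ 0 := by
  rintro rfl
  exact hx.trans isAlgebraic_zero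

/-- clearing denominators in the chart `x` -/
theorem exists_pow_mul_isIntegral {y : E} (hy : IsIntegral (Algebra.adjoin A {x, x⁻¹}) y) :
    ∃ n : ℕ, IsIntegral (Algebra.adjoin A {x}) ((algebraMap L E x) ^ n * y) := by
  have := hx.frac
  have hT : Submonoid.powers (⟨x, Algebra.self_mem_adjoin_singleton A x⟩ : Algebra.adjoin A {x}) ≤
      nonZeroDivisors (Algebra.adjoin A {x}) := by
    apply powers_le_nonZeroDivisors_of_noZeroDivisors
    intro h
    exact ne_zero hx (congrArg Subtype.val h)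
  obtain ⟨d, hd, hdy⟩ := (hx.isLocSub_powers.isIntegral_iff (E := E) hT y).mp
    (isIntegral_toSubring hy)
  obtain ⟨n, rfl⟩ := (Submonoid.mem_powers_iff _ _).mp hd
  refine ⟨n, ?_⟩
  rw [map_pow] at hdy
  exact hdy

/-- clearing denominators in the chart `x⁻¹` -/
theorem exists_inv_pow_mul_isIntegral {y : E} (hy : IsIntegral (Algebra.adjoin A {x, x⁻¹}) y) :
    ∃ n : ℕ, IsIntegral (Algebra.adjoin A {x⁻¹}) ((algebraMap L E x)⁻¹ ^ n * y) := by
  have hset : ({x⁻¹, x⁻¹⁻¹} : Set L) = {x, x⁻¹} := by rw [inv_inv, Set.pair_comm]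
  have hy' : IsIntegral (Algebra.adjoin A {x⁻¹, x⁻¹⁻¹}) y := by rw [hset]; exact hy
  obtain ⟨n, hn⟩ := exists_pow_mul_isIntegral hx.inv hy'
  refine ⟨n, ?_⟩
  rwa [map_inv₀] at hn

theorem isIntegral_X : IsIntegral (Algebra.adjoin A {x}) (algebraMap L E x) :=
  isIntegral_algebraMap (R := Algebra.adjoin A {x})
    (x := (⟨x, Algebra.self_mem_adjoin_singleton A x⟩ : Algebra.adjoin A {x}))

theorem isIntegral_X_inv : IsIntegral (Algebra.adjoin A {x⁻¹}) (algebraMap L E x)⁻¹ := by
  rw [← map_inv₀]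
  exact isIntegral_X hx.inv

end CechFG

theorem cech_fg :
    ∃ G : Finset E, (∀ g ∈ G, IsIntegral (Algebra.adjoin A {x, x⁻¹}) g) ∧
      ∀ y : E, IsIntegral (Algebra.adjoin A {x, x⁻¹}) y →
        ∃ (y₁ y₂ : E) (a : E → A), IsIntegral (Algebra.adjoin A {x}) y₁ ∧
          IsIntegral (Algebra.adjoin A {x⁻¹}) y₂ ∧
          y = y₁ + y₂ + ∑ g ∈ G, algebraMap A E (a g) * g := by
  classical
  have hx0 : x ≠ 0 := ne_zero hx
  set X : E := algebraMap L E x with hXdef
  have hX0 : X ≠ 0 := by
    rw [hXdef]; exact (map_ne_zero _).mpr hx0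
  have h1le : Algebra.adjoin A {x} ≤ Algebra.adjoin A {x, x⁻¹} :=
    Algebra.adjoin_mono (by intro a ha; left; exact ha)
  have h2le : Algebra.adjoin A {x⁻¹} ≤ Algebra.adjoin A {x, x⁻¹} :=
    Algebra.adjoin_mono (by intro a ha; right; exact ha)
  -- finiteness of `R₁`
  have := hx.frac
  have := hx.isIntegrallyClosed
  have := hx.isNoetherianRing
  have hfin : Module.Finite (Algebra.adjoin A {x}) (integralClosure (Algebra.adjoin A {x}) E) :=
    IsIntegralClosure.finite (Algebra.adjoin A {x}) L E (integralClosure (Algebra.adjoin A {x}) E)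
  obtain ⟨s, hs⟩ := hfin.fg_top
  set sE : Finset E :=
    s.image (fun a : integralClosure (Algebra.adjoin A {x}) E => (a : E)) with hsE
  have hsE1 : ∀ b ∈ sE, IsIntegral (Algebra.adjoin A {x}) b := by
    intro b hb
    obtain ⟨a, -, rfl⟩ := Finset.mem_image.mp hb
    exact a.2
  -- uniform exponent for the second chart
  have hk : ∀ b : E, ∃ k : ℕ, b ∈ sE → IsIntegral (Algebra.adjoin A {x⁻¹}) (X⁻¹ ^ k * b) := by
    intro b
    by_cases hb : b ∈ sE
    · obtain ⟨k, hk⟩ := exists_inv_pow_mul_isIntegral hx (isIntegral_mono h1le (hsE1 b hb))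
      exact ⟨k, fun _ => hk⟩
    · exact ⟨0, fun h => absurd h hb⟩
  choose k hk using hk
  set c : ℕ := sE.sup k with hc
  have hXi2 : IsIntegral (Algebra.adjoin A {x⁻¹}) X⁻¹ := isIntegral_X_inv hx
  have hX1 : IsIntegral (Algebra.adjoin A {x}) X := isIntegral_X hx
  have hbig : ∀ b ∈ sE, ∀ m : ℕ, c ≤ m → IsIntegral (Algebra.adjoin A {x⁻¹}) (X⁻¹ ^ m * b) := by
    intro b hb m hm
    have hkb : k b ≤ m := le_trans (Finset.le_sup hb) hm
    have : X⁻¹ ^ m * b = X⁻¹ ^ (m - k b) * (X⁻¹ ^ k b * b) := by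
      rw [← mul_assoc, ← pow_add, Nat.sub_add_cancel hkb]
    rw [this]
    exact (hXi2.pow _).mul (hk b hb)
  set G : Finset E := (Finset.range c ×ˢ sE).image (fun mb => X⁻¹ ^ mb.1 * mb.2) with hG
  -- the three pieces
  let R1 : Submodule A E :=
    Subalgebra.toSubmodule ((integralClosure (Algebra.adjoin A {x}) E).restrictScalars A)
  let R2 : Submodule A E :=
    Subalgebra.toSubmodule ((integralClosure (Algebra.adjoin A {x⁻¹}) E).restrictScalars A)
  let D : Submodule A E := R1 ⊔ R2 ⊔ Submodule.span A (G : Set E)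
  have hR1 : ∀ y : E, IsIntegral (Algebra.adjoin A {x}) y → y ∈ D := fun y hy =>
    Submodule.mem_sup_left (Submodule.mem_sup_left hy)
  have hR2 : ∀ y : E, IsIntegral (Algebra.adjoin A {x⁻¹}) y → y ∈ D := fun y hy =>
    Submodule.mem_sup_left (Submodule.mem_sup_right hy)
  have hGD : ∀ y ∈ G, y ∈ D := fun y hy =>
    Submodule.mem_sup_right (Submodule.subset_span hy)
  -- generators
  have hbase : ∀ b ∈ sE, ∀ j : ℤ, X ^ j * b ∈ D := by
    intro b hb j
    obtain ⟨n, rfl | rfl⟩ := j.eq_nat_or_neg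
    · rw [zpow_natCast]
      exact hR1 _ ((hX1.pow n).mul (hsE1 b hb))
    · rw [zpow_neg, zpow_natCast, ← inv_pow]
      by_cases hn : n < c
      · exact hGD _ (Finset.mem_image.mpr ⟨(n, b), Finset.mem_product.mpr
          ⟨Finset.mem_range.mpr hn, hb⟩, rfl⟩)
      · exact hR2 _ (hbig b hb n (not_lt.mp hn))
  -- stability under `A[x]`
  have hmul : ∀ r : L, r ∈ Algebra.adjoin A {x} → ∀ z : E, (∀ j : ℤ, X ^ j * z ∈ D) →
      ∀ j : ℤ, X ^ j * (algebraMap L E r * z) ∈ D := by
    intro r hr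
    induction hr using Algebra.adjoin_induction with
    | mem r hr =>
      intro z hz j
      rw [Set.mem_singleton_iff.mp hr, ← mul_assoc, ← hXdef, ← zpow_add_one₀ hX0]
      exact hz _
    | algebraMap a =>
      intro z hz j
      rw [← IsScalarTower.algebraMap_apply, ← Algebra.smul_def, mul_smul_comm]
      exact D.smul_mem a (hz j)
    | add r₁ r₂ _ _ h₁ h₂ =>
      intro z hz j
      rw [map_add, add_mul, mul_add]
      exact D.add_mem (h₁ z hz j) (h₂ z hz j)
    | mul r₁ r₂ _ _ h₁ h₂ =>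
      intro z hz j
      rw [map_mul, mul_assoc]
      exact h₁ _ (h₂ z hz) j
  have hall : ∀ z : integralClosure (Algebra.adjoin A {x}) E, ∀ j : ℤ, X ^ j * (z : E) ∈ D := by
    intro z
    have hz : z ∈ Submodule.span (Algebra.adjoin A {x}) (s : Set _) := by rw [hs]; trivial
    induction hz using Submodule.span_induction with
    | mem a ha => exact hbase _ (Finset.mem_image.mpr ⟨a, ha, rfl⟩)
    | zero => intro j; simp
    | add a b _ _ ha hb =>
      intro j
      rw [Subalgebra.coe_add, mul_add]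
      exact D.add_mem (ha j) (hb j)
    | smul r a _ ha =>
      intro j
      have hra : ((r • a : integralClosure (Algebra.adjoin A {x}) E) : E) =
          algebraMap L E r * (a : E) := by
        rw [Algebra.smul_def]
        rfl
      rw [hra]
      exact hmul r r.2 _ ha j
  refine ⟨G, ?_, ?_⟩
  · intro g hg
    obtain ⟨⟨m, b⟩, hmb, rfl⟩ := Finset.mem_image.mp hg
    exact ((isIntegral_mono h2le hXi2).pow m).mul
      (isIntegral_mono h1le (hsE1 b (Finset.mem_product.mp hmb).2))
  · intro y hy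
    obtain ⟨n, hn⟩ := exists_pow_mul_isIntegral hx hy
    have hyD : y ∈ D := by
      have := hall ⟨X ^ n * y, hn⟩ (-(n : ℤ))
      rwa [zpow_neg, zpow_natCast, ← mul_assoc, inv_mul_cancel₀ (pow_ne_zero n hX0), one_mul]
        at this
    obtain ⟨u, hu, w, hw, rfl⟩ := Submodule.mem_sup.mp hyD
    obtain ⟨y₁, hy₁, y₂, hy₂, rfl⟩ := Submodule.mem_sup.mp hu
    obtain ⟨f, -, rfl⟩ := Submodule.mem_span_finset.mp hw
    refine ⟨y₁, y₂, f, hy₁, hy₂, ?_⟩
    simp only [Algebra.smul_def]

end Fermat.Agent.KLB
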