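import Mathlib

/-!
# KL-B abstract part: lifting idempotents modulo powers of `π` (elementary)
-/

namespace Fermat.Agent.KLB

variable {R : Type*} [CommRing R]

/-- Newton iteration `e ↦ 3 e² - 2 e³`. -/
theorem exists_idem_lift (π e : R) (h : π ∣ e ^ 2 - e) (N : ℕ) :
    ∃ e' : R, π ∣ e' - e ∧ π ^ (N + 1) ∣ e' ^ 2 - e' := by
  induction N with
  | zero => exact ⟨e, by simp, by simpa using h⟩
  | succ n ih =>
    obtain ⟨f, hf, hf'⟩ := ih
    obtain ⟨r, hr⟩ := hf'
    refine ⟨3 * f ^ 2 - 2 * f ^ 3, ?_, ?_⟩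
    · have h1 : 3 * f ^ 2 - 2 * f ^ 3 - e = (f - e) - (f ^ 2 - f) * (2 * f - 1) := by ring
      rw [h1]
      refine dvd_sub hf (Dvd.dvd.mul_right ?_ _)
      rw [hr, pow_succ', mul_assoc]
      exact Dvd.intro _ rfl
    · have h1 : (3 * f ^ 2 - 2 * f ^ 3) ^ 2 - (3 * f ^ 2 - 2 * f ^ 3)
          = (f ^ 2 - f) ^ 2 * (4 * f ^ 2 - 4 * f - 3) := by ring
      rw [h1, hr]
      refine Dvd.dvd.mul_right ?_ _
      rw [mul_pow, ← pow_mul]
      exact Dvd.dvd.mul_right (pow_dvd_pow _ (by omega)) _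

/-- Two idempotents modulo `π ^ N` which are congruent modulo `π` are congruent modulo `π ^ N`. -/
theorem idem_unique (π e f : R) (N : ℕ) (he : π ^ N ∣ e ^ 2 - e) (hf : π ^ N ∣ f ^ 2 - f)
    (hef : π ∣ e - f) : π ^ N ∣ e - f := by
  -- `δ = e - f` satisfies `δ ≡ δ ^ 3`
  have key : π ^ N ∣ (e - f) - (e - f) ^ 3 := by
    have h1 : (e - f) - (e - f) ^ 3
        = (f ^ 2 - f) * (f + 1 - 3 * e) - (e ^ 2 - e) * (e + 1 - 3 * f) := by ring
    rw [h1]
    exact dvd_sub (Dvd.dvd.mul_right hf _) (Dvd.dvd.mul_right he _)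
  have step : ∀ k : ℕ, k ≤ N → π ^ k ∣ e - f := by
    intro k
    induction k with
    | zero => intro _; simp
    | succ n ih =>
      intro hn
      rcases Nat.eq_zero_or_pos n with rfl | hpos
      · simpa using hef
      have h2 : π ^ n ∣ e - f := ih (by omega)
      have h3 : π ^ (n + 1) ∣ (e - f) ^ 3 := by
        have : π ^ (n * 3) ∣ (e - f) ^ 3 := by
          rw [pow_mul]; exact pow_dvd_pow_of_dvd h2 3
        exact (pow_dvd_pow _ (by omega)).trans this
      have h4 : π ^ (n + 1) ∣ (e - f) - (e - f) ^ 3 := (pow_dvd_pow _ hn).trans key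
      have := dvd_add h4 h3
      simpa using this
  exact step N le_rfl

end Fermat.Agent.KLB
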